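import Mathlib
import Fermat.Agent.S48.B.Defs.Model
import Fermat.Agent.S48.B.B1.Seams
import Fermat.Agent.S48.B.Red.Seams
import Fermat.Agent.S28.ThetaAdjoin
import Fermat.Agent.S37.Gauss.HasRep

/-!
# PROJECT D (S48), part B, block B3 (reduction of `X₁(M)`), brick B, core (helper1)

The `ℤ`-integral elements of `F1 M`, their reductions to any field, and the compatible bases:

* `intZ M : Subring (LaurentSeries ℤ)` : series over `ℤ` whose image over `ℚ` lies in `F1 M`;
  `redZ M k : intZ M →+* F1C M k`, `toL M L : intZ M →+* laurentBaseChange L (F1 M)`; `jZ`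
  (`jC` is the one of `Red/Seams`).
* `span_range_redZ` : if `F1C M k` is finite-dimensional over `k(j)`, it is the `k(j)`-span of the
  reductions of the `ℤ`-integral elements (a finite-dimensional domain over a field is a field).
* `exists_basis_redZ` : a `k(j)`-basis of `F1C M k` made of such reductions.
* `linearIndependent_toL` : lifts are independent over `ℚ̄(j)` (joint scaling of polynomials over a
  valuation ring of `ℚ̄` with a residue map `π : A →+* k`).
* `exists_bases` : under the degree equality, ONE family `t : Fin n → intZ M` which is a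
  `ℚ̄(j)`-basis of `F1Bar M` and reduces to a `k(j)`-basis of `F1C M k`.
-/

set_option autoImplicit false

noncomputable section

namespace Fermat.Agent.S48.B.Red.Bases1.Core

open HahnSeries ModularCurve IntermediateField Polynomial
open Fermat.Agent.S48.B.Defs.Model Fermat.Agent.S48.B.B1.Seams
open Fermat.Agent.S48.B.Red.Seams (jC coe_jC)

local notation "Kb" => AlgebraicClosure ℚ

/-! ### polynomials in `j` over any coefficient ring -/

section EvJ

variable (R : Type*) [CommRing R]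

/-- `Q(j)` as a Laurent series over `R` -/
def evJ (Q : R[X]) : LaurentSeries R := Q.eval₂ (HahnSeries.C : R →+* LaurentSeries R) (jqModC R)

variable {R}

theorem coeffMap_comp_C {S : Type*} [CommRing S] (f : R →+* S) :
    (coeffMap f).comp (HahnSeries.C : R →+* LaurentSeries R) =
      (HahnSeries.C : S →+* LaurentSeries S).comp f := by
  ext r : 1
  show coeffMap f (HahnSeries.C r) = HahnSeries.C (f r)
  rw [HahnSeries.C_apply, HahnSeries.C_apply, coeffMap_single]

theorem coeffMap_evJ {S : Type*} [CommRing S] (f : R →+* S) (Q : R[X]) :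
    coeffMap f (evJ R Q) = evJ S (Q.map f) := by
  rw [evJ, evJ, Polynomial.hom_eval₂, coeffMap_comp_C, coeffMap_jqModC, Polynomial.eval₂_map]

theorem evJ_C_mul (c : R) (Q : R[X]) : evJ R (Polynomial.C c * Q) = HahnSeries.C c * evJ R Q := by
  rw [evJ, evJ, Polynomial.eval₂_mul, Polynomial.eval₂_C]

theorem evJ_eq_aeval (K : Type*) [Field K] (Q : K[X]) : evJ K Q = aeval (jqModC K) Q := by
  rw [evJ, Polynomial.aeval_def]
  congr 1
  ext c : 1
  exact (Fermat.Agent.S28.ThetaAdjoin.algebraMap_eq_C K c).symm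

end EvJ

variable (M : ℕ) [NeZero M]

/-! ### the `ℤ`-integral elements of `F1 M` -/

/-- series over `ℤ` whose image over `ℚ` lies in `F1 M` -/
def intZ : Subring (LaurentSeries ℤ) :=
  (F1 M).toSubalgebra.toSubring.comap (coeffMap (Int.castRingHom ℚ))

variable {M} in
theorem mem_intZ {y : LaurentSeries ℤ} : y ∈ intZ M ↔ coeffMap (Int.castRingHom ℚ) y ∈ F1 M :=
  Iff.rfl

/-- the reduction of a `ℤ`-integral element to a field `k` -/
def redZ (k : Type*) [Field k] : ↥(intZ M) →+* ↥(F1C M k) where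
  toFun y := ⟨coeffMap (Int.castRingHom k) y.1, coeffMap_mem_F1C M k y.2⟩
  map_one' := Subtype.ext (map_one _)
  map_mul' _ _ := Subtype.ext (map_mul _ _ _)
  map_zero' := Subtype.ext (map_zero _)
  map_add' _ _ := Subtype.ext (map_add _ _ _)

@[simp]
theorem coe_redZ (k : Type*) [Field k] (y : ↥(intZ M)) :
    ((redZ M k y : ↥(F1C M k)) : LaurentSeries k) = coeffMap (Int.castRingHom k) y.1 := rfl

theorem coeffMap_intCast_eq (L : Type*) [Field L] [Algebra ℚ L] (y : LaurentSeries ℤ) :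
    coeffMap (Int.castRingHom L) y = coeffEmb L (coeffMap (Int.castRingHom ℚ) y) := by
  rw [coeffEmb, coeffMap_coeffMap]
  exact coeffMap_congr (RingHom.ext_int _ _) y

/-- the realisation of a `ℤ`-integral element over a field `L` of characteristic zero -/
def toL (L : Type*) [Field L] [Algebra ℚ L] : ↥(intZ M) →+* ↥(laurentBaseChange L (F1 M)) where
  toFun y := ⟨coeffMap (Int.castRingHom L) y.1, by
    rw [coeffMap_intCast_eq]
    exact coeffEmb_mem_laurentBaseChange L y.2⟩
  map_one' := Subtype.ext (map_one _)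
  map_mul' _ _ := Subtype.ext (map_mul _ _ _)
  map_zero' := Subtype.ext (map_zero _)
  map_add' _ _ := Subtype.ext (map_add _ _ _)

@[simp]
theorem coe_toL (L : Type*) [Field L] [Algebra ℚ L] (y : ↥(intZ M)) :
    ((toL M L y : ↥(laurentBaseChange L (F1 M))) : LaurentSeries L) =
      coeffMap (Int.castRingHom L) y.1 := rfl

theorem jq_mem_F1 : jq ∈ F1 M := by
  have h := jqd_mem_F1 M (d := 1) (one_dvd M)
  rwa [qExpand_one_apply] at h

/-- `j` as a `ℤ`-integral element -/
def jZ : ↥(intZ M) := ⟨jqModC ℤ, by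
  rw [mem_intZ, coeffMap_jqModC, jqModC_rat]
  exact jq_mem_F1 M⟩

theorem redZ_jZ (k : Type*) [Field k] : redZ M k (jZ M) = jC M k :=
  Subtype.ext (by rw [coe_redZ, coe_jC]; exact coeffMap_jqModC _)

theorem coe_jgen1 : ((jgen1 M : ↥(F1Bar M)) : LaurentSeries Kb) = jqModC Kb := by
  have h1 : ((jgen1 M : ↥(F1Bar M)) : LaurentSeries Kb) =
      ((Fermat.Agent.S24.DegreeAlg.jgen M : ↥(modularFunctionFieldBar M)) : LaurentSeries Kb) := rfl
  rw [h1, Fermat.Agent.S24.DegreeAlg.coe_jgen, ← jqModC_rat]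
  exact coeffMap_jqModC _

theorem toL_jZ : toL M Kb (jZ M) = jgen1 M :=
  Subtype.ext (by rw [coe_toL, coe_jgen1]; exact coeffMap_jqModC _)

theorem transcendental_jC (k : Type*) [Field k] : Transcendental k (jC M k) := by
  intro h
  apply Fermat.Agent.S28.ThetaAdjoin.transcendental_jqModC k
  have h1 := h.algHom (F1C M k).val
  have h2 : (F1C M k).val (jC M k) = jqModC k := coe_jC M k
  rwa [h2] at h1

theorem transcendental_jgen1 : Transcendental Kb (jgen1 M) := by
  intro h
  apply Fermat.Agent.S28.ThetaAdjoin.transcendental_jqModC Kb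
  have h1 := h.algHom (F1Bar M).val
  have h2 : (F1Bar M).val (jgen1 M) = jqModC Kb := coe_jgen1 M
  rwa [h2] at h1

/-- the range of `redZ`, as a set of series, is `integralReductions` -/
theorem range_redZ (k : Type*) [Field k] (x : LaurentSeries k) :
    x ∈ integralReductions M k ↔ ∃ y : ↥(intZ M), ((redZ M k y : ↥(F1C M k)) : LaurentSeries k) = x := by
  constructor
  · rintro ⟨y, hy, rfl⟩
    exact ⟨⟨y, hy⟩, rfl⟩
  · rintro ⟨y, rfl⟩
    exact ⟨y.1, y.2, rfl⟩

/-! ### `F1C M k` is the `k(j)`-span of the reductions -/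

section Span

variable (k : Type*) [Field k]

theorem redZ_mem_of_mem_integralReductions {x : LaurentSeries k} (hx : x ∈ integralReductions M k)
    (hx' : x ∈ F1C M k) : (⟨x, hx'⟩ : ↥(F1C M k)) ∈ Set.range (redZ M k) := by
  obtain ⟨y, hy⟩ := (range_redZ M k x).1 hx
  exact ⟨y, Subtype.ext hy⟩

/-- the `k(j)`-subalgebra generated by the reductions is everything -/
theorem adjoin_range_redZ [FiniteDimensional k⟮jC M k⟯ ↥(F1C M k)] (x : ↥(F1C M k)) :
    x ∈ Algebra.adjoin ↥k⟮jC M k⟯ (Set.range (redZ M k)) := by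
  set T : Subalgebra ↥k⟮jC M k⟯ ↥(F1C M k) := Algebra.adjoin ↥k⟮jC M k⟯ (Set.range (redZ M k))
    with hT
  obtain ⟨x, hx⟩ := x
  have key : ∀ (x : LaurentSeries k) (hx : x ∈ IntermediateField.adjoin k (integralReductions M k)),
      (⟨x, hx⟩ : ↥(F1C M k)) ∈ T := by
    intro x hx
    induction hx using IntermediateField.adjoin_induction with
    | mem x hx =>
      exact Algebra.subset_adjoin (redZ_mem_of_mem_integralReductions M k hx _)
    | algebraMap c =>
      have h1 : (⟨algebraMap k (LaurentSeries k) c, (F1C M k).algebraMap_mem c⟩ : ↥(F1C M k)) =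
          algebraMap ↥k⟮jC M k⟯ ↥(F1C M k) (algebraMap k ↥k⟮jC M k⟯ c) := rfl
      rw [h1]
      exact T.algebraMap_mem _
    | add x y hx hy ihx ihy =>
      have h1 : (⟨x + y, add_mem hx hy⟩ : ↥(F1C M k)) = ⟨x, hx⟩ + ⟨y, hy⟩ := rfl
      rw [h1]
      exact T.add_mem ihx ihy
    | inv x hx ih =>
      have h1 : (⟨x⁻¹, inv_mem hx⟩ : ↥(F1C M k)) = (⟨x, hx⟩ : ↥(F1C M k))⁻¹ := rfl
      rw [h1]
      exact T.inv_mem_of_algebraic (x := ⟨⟨x, hx⟩, ih⟩)
        (Algebra.IsAlgebraic.isAlgebraic (R := ↥k⟮jC M k⟯) (⟨x, hx⟩ : ↥(F1C M k)))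
    | mul x y hx hy ihx ihy =>
      have h1 : (⟨x * y, mul_mem hx hy⟩ : ↥(F1C M k)) = ⟨x, hx⟩ * ⟨y, hy⟩ := rfl
      rw [h1]
      exact T.mul_mem ihx ihy
  exact key x hx

theorem span_range_redZ [FiniteDimensional k⟮jC M k⟯ ↥(F1C M k)] :
    Submodule.span ↥k⟮jC M k⟯ (Set.range (redZ M k)) = ⊤ := by
  have h1 : Submonoid.closure (Set.range (redZ M k)) = (redZ M k).range.toSubmonoid := by
    have h2 : (Set.range (redZ M k)) = ((redZ M k).range.toSubmonoid : Set ↥(F1C M k)) := by
      ext x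
      exact Iff.rfl
    rw [h2, Submonoid.closure_eq]
  have h3 := Algebra.adjoin_eq_span (R := ↥k⟮jC M k⟯) (s := Set.range (redZ M k))
  rw [h1] at h3
  rw [eq_top_iff]
  intro x _
  have h4 : x ∈ Subalgebra.toSubmodule (Algebra.adjoin ↥k⟮jC M k⟯ (Set.range (redZ M k))) :=
    adjoin_range_redZ M k x
  rw [h3] at h4
  exact h4

/-- a `k(j)`-basis of `F1C M k` made of reductions of `ℤ`-integral elements -/
theorem exists_basis_redZ [FiniteDimensional k⟮jC M k⟯ ↥(F1C M k)] :
    ∃ (t : Fin (Module.finrank ↥k⟮jC M k⟯ ↥(F1C M k)) → ↥(intZ M))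
      (b : Module.Basis (Fin (Module.finrank ↥k⟮jC M k⟯ ↥(F1C M k))) ↥k⟮jC M k⟯ ↥(F1C M k)),
      ∀ i, b i = redZ M k (t i) := by
  classical
  have hs : ⊤ ≤ Submodule.span ↥k⟮jC M k⟯ (Set.range (redZ M k)) := (span_range_redZ M k).ge
  let b0 := Module.Basis.ofSpan hs
  have : Fintype ↥((linearIndepOn_empty ↥k⟮jC M k⟯ id).extend
      (Set.empty_subset (Set.range (redZ M k)))) := FiniteDimensional.fintypeBasisIndex b0
  have hcard := (Module.finrank_eq_card_basis b0).symm
  let e := Fintype.equivFinOfCardEq hcard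
  have hmem : ∀ i, b0 i ∈ Set.range (redZ M k) := fun i =>
    Module.Basis.ofSpan_subset hs ⟨i, rfl⟩
  choose t ht using hmem
  refine ⟨fun j => t (e.symm j), b0.reindex e, fun j => ?_⟩
  rw [Module.Basis.reindex_apply, ← ht]

end Span

/-! ### lifts of independent reductions are independent -/

section Lift

variable {k : Type*} [Field k]

theorem coe_aeval_jgen1 (P : Kb[X]) :
    ((aeval (jgen1 M) P : ↥(F1Bar M)) : LaurentSeries Kb) = evJ Kb P := by
  rw [← IntermediateField.aeval_coe, coe_jgen1, evJ_eq_aeval]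

theorem coe_aeval_jC (P : k[X]) :
    ((aeval (jC M k) P : ↥(F1C M k)) : LaurentSeries k) = evJ k P := by
  rw [← IntermediateField.aeval_coe, coe_jC, evJ_eq_aeval]

/-- lifts of a `k(j)`-independent family of reductions are `ℚ̄(j)`-independent -/
theorem linearIndependent_toL (A : ValuationSubring Kb) (π : ↥A →+* k) {n : ℕ}
    (t : Fin n → ↥(intZ M))
    (hind : LinearIndependent ↥k⟮jC M k⟯ (fun i => redZ M k (t i))) :
    LinearIndependent ↥Kb⟮jgen1 M⟯ (fun i => toL M Kb (t i)) := by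
  classical
  rw [Fintype.linearIndependent_iff]
  intro g hg
  by_contra hne
  obtain ⟨i1, hi1⟩ := not_forall.1 hne
  -- numerators and denominators
  have hrep : ∀ i, ∃ r s : Kb[X], aeval (jgen1 M) s ≠ 0 ∧
      ((g i : ↥Kb⟮jgen1 M⟯) : ↥(F1Bar M)) * aeval (jgen1 M) s = aeval (jgen1 M) r := by
    intro i
    obtain ⟨r, s, hrs⟩ := (IntermediateField.mem_adjoin_simple_iff Kb _).1 (g i).2
    by_cases hs : aeval (jgen1 M) s = 0
    · refine ⟨0, 1, ?_, ?_⟩
      · rw [map_one]
        exact one_ne_zero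
      · rw [hrs, hs, div_zero, zero_mul, map_zero]
    · exact ⟨r, s, hs, by rw [hrs, div_mul_cancel₀ _ hs]⟩
  choose r s hs hrs using hrep
  set S : Kb[X] := ∏ i, s i with hSdef
  set P : Fin n → Kb[X] := fun i => r i * ∏ m ∈ Finset.univ.erase i, s m with hPdef
  have hS : aeval (jgen1 M) S ≠ 0 := by
    rw [hSdef, map_prod]
    exact Finset.prod_ne_zero_iff.2 fun i _ => hs i
  have hgP : ∀ i, ((g i : ↥Kb⟮jgen1 M⟯) : ↥(F1Bar M)) * aeval (jgen1 M) S =
      aeval (jgen1 M) (P i) := by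
    intro i
    have h1 : S = s i * ∏ m ∈ Finset.univ.erase i, s m :=
      (Finset.mul_prod_erase _ _ (Finset.mem_univ i)).symm
    rw [h1, map_mul, ← mul_assoc, hrs i, ← map_mul]
  have hP1 : P i1 ≠ 0 := by
    intro h0
    have h1 := hgP i1
    rw [h0, map_zero] at h1
    rcases mul_eq_zero.1 h1 with h | h
    · exact hi1 (Subtype.ext h)
    · exact hS h
  have hsum : ∑ i, aeval (jgen1 M) (P i) * toL M Kb (t i) = 0 := by
    have h1 : ∑ i, aeval (jgen1 M) (P i) * toL M Kb (t i) =
        aeval (jgen1 M) S * ∑ i, g i • toL M Kb (t i) := by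
      rw [Finset.mul_sum]
      refine Finset.sum_congr rfl fun i _ => ?_
      rw [← hgP i, Algebra.smul_def]
      show _ = aeval (jgen1 M) S * (((g i : ↥Kb⟮jgen1 M⟯) : ↥(F1Bar M)) * toL M Kb (t i))
      ring
    rw [h1, hg, mul_zero]
  obtain ⟨c, Q, hc0, ⟨i0, hQi0⟩, hPQ⟩ :=
    Fermat.Agent.S37.Gauss.HasRep.exists_scale_family π P ⟨i1, hP1⟩
  -- the relation over `A`
  have hA : ∑ i, evJ ↥A (Q i) * coeffMap (Int.castRingHom ↥A) (t i).1 = 0 := by
    apply Fermat.Agent.S18.GaussFromH.coeffMap_subtype_injective (A := A)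
    rw [map_zero, map_sum]
    have h2 := congrArg (fun x : ↥(F1Bar M) => (x : LaurentSeries Kb)) hsum
    simp only [AddSubmonoidClass.coe_finsetSum, ZeroMemClass.coe_zero, MulMemClass.coe_mul,
      coe_aeval_jgen1, coe_toL] at h2
    have h3 : ∑ i, evJ Kb (P i) * coeffMap (Int.castRingHom Kb) (t i).1 =
        HahnSeries.C c * ∑ i, coeffMap A.subtype
          (evJ ↥A (Q i) * coeffMap (Int.castRingHom ↥A) (t i).1) := by
      rw [Finset.mul_sum]
      refine Finset.sum_congr rfl fun i _ => ?_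
      rw [hPQ i, evJ_C_mul, map_mul, coeffMap_evJ, coeffMap_coeffMap, mul_assoc]
      congr 2
    rw [h3] at h2
    exact (mul_eq_zero.1 h2).resolve_left (HahnSeries.C_ne_zero hc0)
  -- reduce
  have hk : ∑ i, evJ k ((Q i).map π) * coeffMap (Int.castRingHom k) (t i).1 = 0 := by
    have h2 := congrArg (coeffMap π) hA
    rw [map_zero, map_sum] at h2
    rw [← h2]
    refine Finset.sum_congr rfl fun i _ => ?_
    rw [map_mul, coeffMap_evJ, coeffMap_coeffMap]
    congr 1
    exact coeffMap_congr (RingHom.ext_int _ _) _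
  have hk' : ∑ i, (aeval (AdjoinSimple.gen k (jC M k)) ((Q i).map π) : ↥k⟮jC M k⟯) •
      redZ M k (t i) = 0 := by
    apply Subtype.ext
    rw [ZeroMemClass.coe_zero, ← hk, AddSubmonoidClass.coe_finsetSum]
    refine Finset.sum_congr rfl fun i _ => ?_
    rw [Algebra.smul_def]
    show ((((aeval (AdjoinSimple.gen k (jC M k)) ((Q i).map π) : ↥k⟮jC M k⟯) : ↥(F1C M k)) *
      redZ M k (t i) : ↥(F1C M k)) : LaurentSeries k) = _
    rw [AdjoinSimple.coe_aeval_gen_apply, MulMemClass.coe_mul, coe_aeval_jC, coe_redZ]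
  have h5 := Fintype.linearIndependent_iff.1 hind _ hk' i0
  have h6 : aeval (jC M k) ((Q i0).map π) = 0 := by
    rw [← AdjoinSimple.coe_aeval_gen_apply, h5]
    rfl
  exact hQi0 (transcendental_iff.1 (transcendental_jC M k) _ h6)

/-- **The compatible bases**: under the degree equality, ONE family of `ℤ`-integral elements of
`F1 M` which is a `ℚ̄(j)`-basis of `F1Bar M` and whose reduction is a `k(j)`-basis of `F1C M k`. -/
theorem exists_bases (A : ValuationSubring Kb) (π : ↥A →+* k)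
    [FiniteDimensional ↥k⟮jC M k⟯ ↥(F1C M k)]
    (hdeg : Module.finrank ↥k⟮jC M k⟯ ↥(F1C M k) = Module.finrank ↥Kb⟮jgen1 M⟯ ↥(F1Bar M)) :
    ∃ (n : ℕ) (t : Fin n → ↥(intZ M))
      (bL : Module.Basis (Fin n) ↥Kb⟮jgen1 M⟯ ↥(F1Bar M))
      (bk : Module.Basis (Fin n) ↥k⟮jC M k⟯ ↥(F1C M k)),
      (∀ i, bL i = toL M Kb (t i)) ∧ (∀ i, bk i = redZ M k (t i)) := by
  obtain ⟨t, bk, hbk⟩ := exists_basis_redZ M k
  have hind : LinearIndependent ↥k⟮jC M k⟯ (fun i => redZ M k (t i)) := by
    have h1 := bk.linearIndependent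
    have h2 : (⇑bk : _ → ↥(F1C M k)) = fun i => redZ M k (t i) := funext hbk
    rwa [h2] at h1
  have hL := linearIndependent_toL M A π t hind
  have hn : 0 < Module.finrank ↥k⟮jC M k⟯ ↥(F1C M k) := Module.finrank_pos
  have : Nonempty (Fin (Module.finrank ↥k⟮jC M k⟯ ↥(F1C M k))) := ⟨⟨0, hn⟩⟩
  have hcard : Fintype.card (Fin (Module.finrank ↥k⟮jC M k⟯ ↥(F1C M k))) =
      Module.finrank ↥Kb⟮jgen1 M⟯ ↥(F1Bar M) := by rw [Fintype.card_fin, hdeg]
  refine ⟨_, t, basisOfLinearIndependentOfCardEqFinrank hL hcard, bk, fun i => ?_, hbk⟩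
  rw [coe_basisOfLinearIndependentOfCardEqFinrank]

end Lift

end Fermat.Agent.S48.B.Red.Bases1.Core
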